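/-
S56 / block EC, BRIDGE (helper134) : descent of a `G`-module on which the normal subgroup `U` acts
trivially to a `G ⧸ U`-module, and the comparison of the induced modules and of their `PolyRange`s.
-/
import Fermat.Agent.S56.EC.Defs
import Fermat.Agent.S55.Coh.IndApi

set_option autoImplicit false

namespace Fermat.Agent.S56.EC.Arith

open Fermat.Agent.S55 Polynomial

variable {G : Type} [Group G] (U : Subgroup G) [U.Normal]

/-- `N` as a module over `G ⧸ U`, when `U` acts trivially on `N`. -/
def DescMod (N : Type) [AddCommGroup N] [DistribMulAction G N]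
    (_h : ∀ u ∈ U, ∀ a : N, u • a = a) : Type := N

namespace DescMod

variable {U} {N : Type} [AddCommGroup N] [DistribMulAction G N] {h : ∀ u ∈ U, ∀ a : N, u • a = a}

instance : AddCommGroup (DescMod U N h) := inferInstanceAs (AddCommGroup N)

variable (U h) in
/-- The identity `N ≃+ DescMod U N h`. -/
def of : N ≃+ DescMod U N h := AddEquiv.refl N

instance : DistribMulAction (G ⧸ U) (DescMod U N h) :=
  DistribMulAction.compHom N (QuotientGroup.lift U (DistribMulAction.toAddMonoidEnd G N)
    (fun u hu => by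
      rw [MonoidHom.mem_ker]
      ext a
      exact h u hu a))

theorem mk_smul (g : G) (a : N) : (g : G ⧸ U) • of U h a = of U h (g • a) := rfl

omit [U.Normal] in
theorem finite [Finite N] : Finite (DescMod U N h) := ‹Finite N›

omit [U.Normal] in
theorem card : Nat.card (DescMod U N h) = Nat.card N := rfl

omit [U.Normal] in
theorem nsmul_eq_zero {p : ℕ} (hp : ∀ a : N, p • a = 0) (a : DescMod U N h) : p • a = 0 := hp a

variable (U h) in
/-- `ResMod π (DescMod U N h) → N`, the identity. -/
def back : ResMod (QuotientGroup.mk' U) (DescMod U N h) →+[G] N where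
  toFun a := a
  map_smul' _ _ := rfl
  map_zero' := rfl
  map_add' _ _ := rfl

theorem back_bijective : Function.Bijective (back U h) := Function.bijective_id

end DescMod

section ind

variable {U} {N : Type} [AddCommGroup N] [DistribMulAction G N] (h : ∀ u ∈ U, ∀ a : N, u • a = a)

theorem smul_eq_mk_mul (g : G) (x : G ⧸ U) : g • x = (g : G ⧸ U) * x := by
  induction x using QuotientGroup.induction_on with
  | H a => rfl

/-- `ResMod π (Map(D, N)) → Map(G ⧸ U, N)`, `D = G ⧸ U`: the identity on functions. -/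
def indBack : ResMod (QuotientGroup.mk' U) (IndMod (G ⧸ U) (DescMod U N h)) →+[G]
    IndMod (G ⧸ U) N where
  toFun f := IndMod.of fun x => (show IndMod (G ⧸ U) (DescMod U N h) from f) x
  map_smul' g f := by
    ext x
    change ((g : G ⧸ U) • (show IndMod (G ⧸ U) (DescMod U N h) from f)) x = _
    rw [IndMod.smul_apply, IndMod.smul_apply, smul_eq_mk_mul, smul_eq_mul]
    rfl
  map_zero' := rfl
  map_add' _ _ := rfl

theorem indBack_apply (f : IndMod (G ⧸ U) (DescMod U N h)) (x : G ⧸ U) :
    indBack h (ResMod.toRes _ f) x = f x := rfl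

theorem indBack_bijective : Function.Bijective (indBack h) := by
  refine ⟨fun f f' hff' => ?_, fun F => ⟨IndMod.of fun x => F x, rfl⟩⟩
  have : ∀ x, (show IndMod (G ⧸ U) (DescMod U N h) from f) x =
      (show IndMod (G ⧸ U) (DescMod U N h) from f') x := fun x => DFunLike.congr_fun hff' x
  exact DFunLike.ext (F := IndMod (G ⧸ U) (DescMod U N h)) _ _ this

/-- `indBack` intertwines the two right translations. -/
theorem indBack_pull (s : G) (hs : ∀ u ∈ U, s⁻¹ * u * s ∈ U)
    (f : IndMod (G ⧸ U) (DescMod U N h)) :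
    indBack h (ResMod.toRes _ (IndMod.pull (DescMod U N h) (rightMul (s : G ⧸ U)) f)) =
      IndMod.pull N (cosetRight U s hs) (indBack h (ResMod.toRes _ f)) := by
  ext x
  induction x using QuotientGroup.induction_on with
  | H a => rfl

end ind

section polyRange

variable {H : Type} [Group H] (f : H →* G) {X Y : Type} [AddCommGroup X] [DistribMulAction G X]
  [AddCommGroup Y] [DistribMulAction H Y]

/-- Transport of `PolyRange` along an isomorphism `ResMod f X ≅ Y` intertwining the operators. -/
theorem exists_polyRange_bijective (Θ : ResMod f X →+[H] Y) (hΘ : Function.Bijective Θ)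
    (γ : X →+[G] X) (γ' : Y →+[H] Y)
    (hγ : ∀ x, Θ (ResMod.toRes f (γ x)) = γ' (Θ (ResMod.toRes f x))) (P : ℤ[X]) :
    ∃ Φ : ResMod f (PolyRange γ P) →+[H] PolyRange γ' P, Function.Bijective Φ := by
  have hnat : ∀ x : X, Θ (ResMod.toRes f (polyMap γ P x)) = polyMap γ' P (Θ (ResMod.toRes f x)) :=
    fun x => polyAdd_natural ((Θ : ResMod f X →+ Y).comp (ResMod.toRes f (A := X)).toAddMonoidHom)
      (γ : X →+ X) (γ' : Y →+ Y) hγ P x
  let Ψ : ResMod f (PolyRange γ P) →+[H] Y :=
    Θ.comp (ResMod.map f (GSub.range (polyMap γ P)).inclG)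
  have hΨ : ∀ a, Ψ a ∈ (GSub.range (polyMap γ' P)).toAddSubgroup := by
    intro a
    obtain ⟨a, rfl⟩ := (ResMod.toRes f).surjective a
    obtain ⟨x, hx⟩ := (GSub.range (polyMap γ P)).incl_mem a
    refine ⟨Θ (ResMod.toRes f x), ?_⟩
    change polyMap γ' P (Θ (ResMod.toRes f x)) =
      Θ (ResMod.toRes f ((GSub.range (polyMap γ P)).incl a))
    rw [← hnat, ← hx]
    rfl
  refine ⟨GSub.codRestrict _ Ψ hΨ, fun a b hab => ?_, fun y => ?_⟩
  · have h1 : Ψ a = Ψ b := congrArg (GSub.range (polyMap γ' P)).incl hab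
    have h2 := hΘ.1 h1
    exact (GSub.range (polyMap γ P)).incl_injective h2
  · obtain ⟨z, hz⟩ := (GSub.range (polyMap γ' P)).incl_mem y
    obtain ⟨x, rfl⟩ := hΘ.2 z
    obtain ⟨x, rfl⟩ := (ResMod.toRes f).surjective x
    refine ⟨ResMod.toRes f (GSub.rangeRestrict (polyMap γ P) x), ?_⟩
    apply (GSub.range (polyMap γ' P)).incl_injective
    rw [← hz]
    exact hnat x

end polyRange

end Fermat.Agent.S56.EC.Arith
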