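/-
S56 / block EC, BRIDGE (helper134) : for a level `U` of `lvlS S`, `D = GQ ⧸ U`,
`M ↦ eS S c (ResMod π M)` is a multiplicative function on finite `𝔽_p[D]`-modules.
-/
import Fermat.Agent.S56.EC.Mult.Main
import Fermat.Agent.S56.EC.Ind.Defs

set_option autoImplicit false

namespace Fermat.Agent.S56.EC.Arith

open Fermat.Agent.S55

variable {S : Finset Nat.Primes} {p : ℕ}

/-- The projection `GQ → GQ ⧸ U`. -/
noncomputable abbrev piU (U : Subgroup GQ) [U.Normal] : GQ →* GQ ⧸ U := QuotientGroup.mk' U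

/-- A finite `𝔽_p[GQ ⧸ U]`-module is a coefficient module. -/
theorem isCoef_resMod (U : Subgroup GQ) [U.Normal] (hU : U ∈ (lvlS S).carrier) (M : Type)
    [AddCommGroup M] [DistribMulAction (GQ ⧸ U) M] (hM : Ind.IsCp p M) :
    IsCoef S p (ResMod (piU U) M) where
  finite := hM.finite
  ptors := hM.tors
  smooth := ⟨fun a => ⟨U, hU, fun n hn => by
    obtain ⟨a, rfl⟩ := (ResMod.toRes (piU U)).surjective a
    rw [ResMod.smul_def]
    have : piU U n = 1 := (QuotientGroup.eq_one_iff n).2 hn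
    rw [this, one_smul]⟩⟩

variable [Fact p.Prime]

/-- `M ↦ eS S c (ResMod π M)` as a multiplicative function on `𝔽_p[GQ ⧸ U]`-modules. -/
noncomputable def multFun (hp2 : p ≠ 2) (hpS : ExtCitation.pPrime p ∈ S) (c : GQ)
    (hc : c * c = 1) (U : Subgroup GQ) [U.Normal] (hU : U ∈ (lvlS S).carrier) :
    Ind.MultFun (GQ ⧸ U) p where
  e M _ _ := eS S c (ResMod (piU U) M)
  pos M _ _ hM := eS_pos hp2 hpS c (isCoef_resMod U hU M hM)
  mul _ B _ _ _ _ _ _ _ _ _ hB h :=
    eS_mul hp2 hpS hc (isCoef_resMod U hU B hB) (ResMod.shortExact_map (piU U) h)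

@[simp] theorem multFun_e (hp2 : p ≠ 2) (hpS : ExtCitation.pPrime p ∈ S) (c : GQ)
    (hc : c * c = 1) (U : Subgroup GQ) [U.Normal] (hU : U ∈ (lvlS S).carrier) (M : Type)
    [AddCommGroup M] [DistribMulAction (GQ ⧸ U) M] :
    (multFun hp2 hpS c hc U hU).e M = eS S c (ResMod (piU U) M) := rfl

end Fermat.Agent.S56.EC.Arith
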