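/-
S56 / block EC, ASSEMBLY (helper134) : the global Euler characteristic formula for ALL coefficient
modules from
* `BaseStmt S p c` : the base case (block EC-BASE, `ec_base`), and
* `IndStmt p`      : the induction theorem IND' (blocks EC-IND / EC-RED).
-/
import Fermat.Agent.S56.EC.Arith.MultFun
import Fermat.Agent.S56.EC.Arith.Desc

set_option autoImplicit false

namespace Fermat.Agent.S56.EC.Arith

open Fermat.Agent.S55 Polynomial

/-- The statement of the base case (export of EC-BASE). -/
def BaseStmt (S : Finset Nat.Primes) (p : ℕ) (c : GQ) : Prop :=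
  ∀ (U : Subgroup GQ) (_ : U ∈ (lvlS S).carrier) (_ : ActsTrivially U (Mu p)) (s : GQ)
    (hs : ∀ u ∈ U, s⁻¹ * u * s ∈ U) (m : ℕ) (_ : ¬ p ∣ m) (_ : s ^ m ∈ U) (P : ℤ[X])
    (_ : IsIdemPoly p m P), ECProp S c (PolyRange (IndMod.pull (Mu p) (cosetRight U s hs)) P)

/-- The statement of the induction theorem IND' (export of EC-IND + EC-RED). -/
def IndStmt (p : ℕ) : Prop :=
  ∀ (D : Type) [Group D] [Finite D] (E : Ind.MultFun D p) (A : Type) [AddCommGroup A]
    [DistribMulAction D A], Nat.card A = p →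
    (∀ (s : D) (m : ℕ), ¬ p ∣ m → s ^ m = 1 → ∀ P : ℤ[X], IsIdemPoly p m P →
      E.e (PolyRange (IndMod.pull A (rightMul s)) P) = 1) →
    ∀ (N : Type) [AddCommGroup N] [DistribMulAction D N], Ind.IsCp p N → E.e N = 1

variable {S : Finset Nat.Primes} {p : ℕ} [Fact p.Prime]

/-- **The global Euler characteristic formula** from the base case and the induction theorem. -/
theorem ec_of (hp2 : p ≠ 2) (hpS : ExtCitation.pPrime p ∈ S) {c : GQ} (hc : IsConj c)
    (hBase : BaseStmt S p c) (hInd : IndStmt p) (N : Type) [AddCommGroup N]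
    [DistribMulAction GQ N] (hN : IsCoef S p N) : ECProp S c N := by
  obtain ⟨V, hV, hVN', hVμ'⟩ := Mult.exists_level hpS N hN
  have hVN : ∀ u ∈ V, ∀ a : N, u • a = a := hVN'
  have hVμ : ∀ u ∈ V, ∀ a : Mu p, u • a = a := hVμ'
  have := (lvlS S).normal V hV
  have := (lvlS S).finiteIndex V hV
  have : Finite (GQ ⧸ V) := Subgroup.finite_quotient_of_finiteIndex
  have hμ := Bridge.coefMu S hpS
  let E := multFun hp2 hpS c hc.mul_self V hV
  have hcp : Ind.IsCp p (DescMod V N hVN) := ⟨hN.finite, hN.ptors⟩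
  have key : E.e (DescMod V N hVN) = 1 := by
    refine hInd (GQ ⧸ V) E (DescMod V (Mu p) hVμ) (Bridge.cardMu p) ?_ _ hcp
    intro s m hm hsm P hP
    induction s using QuotientGroup.induction_on with
    | H s =>
      have hs : ∀ u ∈ V, s⁻¹ * u * s ∈ V := fun u hu => by
        have := ‹V.Normal›.conj_mem u hu s⁻¹
        rwa [inv_inv] at this
      have hsm' : s ^ m ∈ V := by
        rw [← QuotientGroup.eq_one_iff]
        exact hsm
      have hb := hBase V hV hVμ s hs m hm hsm' P hP
      obtain ⟨Φ, hΦ⟩ := exists_polyRange_bijective (QuotientGroup.mk' V) (indBack hVμ)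
        (indBack_bijective hVμ) (IndMod.pull (DescMod V (Mu p) hVμ) (rightMul (s : GQ ⧸ V)))
        (IndMod.pull (Mu p) (cosetRight V s hs)) (indBack_pull hVμ s hs) P
      have hcoef : IsCoef S p (PolyRange (IndMod.pull (Mu p) (cosetRight V s hs)) P) :=
        Formal.isCoef_sub (Formal.isCoef_indMod hμ hV) _
      change eS S c (ResMod (piU V) _) = 1
      rw [eS_congr c hΦ]
      exact (ecProp_iff hp2 hpS c hcoef).1 hb
  rw [ecProp_iff hp2 hpS c hN, ← eS_congr c (DescMod.back_bijective (U := V) (h := hVN))]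
  exact key

end Fermat.Agent.S56.EC.Arith
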